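import Mathlib
import Fermat.Agent.S29.H32.AutOrbit

/-!
# The fixed field of `Aut(L/k)` for an algebraically closed field `L` of characteristic zero

`mem_range_of_forall_algEquiv_eq`: if `L` is algebraically closed, of characteristic zero, and
`x : L` is fixed by every `k`-automorphism of `L`, then `x ∈ k`.  (No hypothesis on `k`.)

Mathlib + `S29/H32/AutOrbit` (translation of a transcendental element) only.
-/

set_option autoImplicit false

noncomputable section

namespace Fermat.Agent.S17.H200

open MvPolynomial

variable {k L : Type*} [Field k] [Field L] [Algebra k L]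

/-- An element of a purely transcendental extension `k(s)` which is algebraic over `k` lies in
`k`. -/
theorem mem_range_of_isAlgebraic_of_mem_adjoin {s : Set L}
    (hs : AlgebraicIndependent k ((↑) : s → L)) {x : L} (hx : IsAlgebraic k x)
    (hxs : x ∈ IntermediateField.adjoin k s) : x ∈ Set.range (algebraMap k L) := by
  classical
  obtain ⟨r, hr, t, ht, hxrt⟩ := IntermediateField.mem_adjoin_iff_div.mp hxs
  rw [Algebra.adjoin_eq_range] at hr ht
  obtain ⟨P, hP⟩ := hr
  obtain ⟨Q, hQ'⟩ := ht
  have hP' : aeval ((↑) : s → L) P = r := hP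
  have hQ'' : aeval ((↑) : s → L) Q = t := hQ'
  subst hP' hQ''
  clear hP hQ'
  by_cases hQ0 : aeval ((↑) : s → L) Q = 0
  · refine ⟨0, ?_⟩
    rw [hxrt, hQ0, div_zero, map_zero]
  have hQ : Q ≠ 0 := fun h => hQ0 (by rw [h, map_zero])
  -- the field `K' = k(x)` is algebraic over `k`
  let K' := IntermediateField.adjoin k ({x} : Set L)
  have : Algebra.IsAlgebraic k K' := IntermediateField.isAlgebraic_adjoin_simple hx.isIntegral
  have hind : AlgebraicIndependent K' ((↑) : s → L) := hs.extendScalars K'
  let g : K' := ⟨x, IntermediateField.mem_adjoin_simple_self k x⟩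
  let R : MvPolynomial s K' := C g * map (algebraMap k K') Q - map (algebraMap k K') P
  have hR : aeval ((↑) : s → L) R = 0 := by
    have h1 : ∀ T : MvPolynomial s k,
        aeval ((↑) : s → L) (map (algebraMap k K') T) = aeval ((↑) : s → L) T := by
      intro T
      rw [aeval_map_algebraMap]
    simp only [R, map_sub, map_mul, h1, aeval_C]
    have : algebraMap K' L g = x := rfl
    rw [this, hxrt, div_mul_cancel₀ _ hQ0, sub_self]
  have hR0 : R = 0 := by
    have hinj : Function.Injective (aeval ((↑) : s → L) : MvPolynomial s K' →ₐ[K'] L) := hind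
    exact hinj (by rw [hR, map_zero])
  obtain ⟨α, hα⟩ : ∃ α, Q.coeff α ≠ 0 := by
    by_contra hcon
    simp only [not_exists, not_not] at hcon
    exact hQ (MvPolynomial.ext _ _ fun α => by rw [hcon α, coeff_zero])
  have hc := congrArg (coeff α) hR0
  simp only [R, coeff_sub, coeff_C_mul, coeff_map, coeff_zero] at hc
  have hc' := congrArg (algebraMap K' L) hc
  simp only [map_sub, map_mul, map_zero] at hc'
  have e1 : algebraMap K' L (algebraMap k K' (Q.coeff α)) = algebraMap k L (Q.coeff α) :=
    (IsScalarTower.algebraMap_apply k K' L _).symm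
  have e2 : algebraMap K' L (algebraMap k K' (P.coeff α)) = algebraMap k L (P.coeff α) :=
    (IsScalarTower.algebraMap_apply k K' L _).symm
  have e3 : algebraMap K' L g = x := rfl
  rw [e1, e2, e3] at hc'
  have hq : algebraMap k L (Q.coeff α) ≠ 0 := by
    rwa [Ne, map_eq_zero]
  refine ⟨P.coeff α / Q.coeff α, ?_⟩
  rw [map_div₀]
  field_simp
  linear_combination -hc'

variable [CharZero k] [IsAlgClosed L]

/-- **The fixed field of `Aut(L/k)` is `k`** (`L` algebraically closed, characteristic zero). -/
theorem mem_range_of_forall_algEquiv_eq (x : L) (h : ∀ σ : L ≃ₐ[k] L, σ x = x) :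
    x ∈ Set.range (algebraMap k L) := by
  by_cases hx : IsAlgebraic k x
  · obtain ⟨s, hs⟩ := exists_isTranscendenceBasis k L
    let E := IntermediateField.adjoin k s
    have hEalg : Algebra.IsAlgebraic E L := by
      have h0 := hs.isAlgebraic_field
      rwa [Subtype.range_coe] at h0
    have : CharZero L := charZero_of_injective_algebraMap (algebraMap k L).injective
    have : CharZero E := charZero_of_injective_algebraMap (algebraMap k E).injective
    have : Normal E L := normal_iff.mpr fun y =>
      ⟨(Algebra.IsAlgebraic.isAlgebraic y).isIntegral, IsAlgClosed.splits _⟩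
    have : IsGalois E L := ⟨⟩
    have hxE : x ∈ (⊥ : IntermediateField E L) := by
      rw [InfiniteGalois.mem_bot_iff_fixed]
      intro σ
      exact h (σ.restrictScalars k)
    obtain ⟨e, he⟩ := IntermediateField.mem_bot.mp hxE
    have hxs : x ∈ IntermediateField.adjoin k s := by
      rw [← he]
      exact e.2
    exact mem_range_of_isAlgebraic_of_mem_adjoin hs.1 hx hxs
  · exfalso
    obtain ⟨σ, hσ⟩ := Fermat.Agent.S29.H32.exists_algEquiv_apply_eq_add x hx (1 : k)
    rw [h σ, map_one] at hσ
    exact one_ne_zero (left_eq_add.mp hσ)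

end Fermat.Agent.S17.H200
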