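import Mathlib
import Fermat.Prelude.Def_ModularCurve_LaurentCoeff

/-!
# Echelon descent for finite-dimensional spaces of Laurent series

Let `W ⊆ C((q))` be a finite-dimensional `C`-subspace.

* `exists_order_le` : the orders of the nonzero elements of `W` are bounded above.
* `le_span_fixed` : if `W` is stable under a set `H` of coefficientwise ring endomorphisms, then
  `W` is spanned by its `H`-fixed vectors.

Mathlib + Prelude `coeffMap` only.
-/

set_option autoImplicit false

noncomputable section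

namespace Fermat.Agent.S17.H200

open ModularCurve

variable {C : Type*} [Field C]

/-- The subspace of `W` of the vectors whose `s`-th coefficient vanishes. -/
def cutAt (W : Submodule C (LaurentSeries C)) (s : ℤ) : Submodule C (LaurentSeries C) :=
  W ⊓ LinearMap.ker (HahnSeries.coeff.linearMap (R := C) s)

theorem mem_cutAt {W : Submodule C (LaurentSeries C)} {s : ℤ} {v : LaurentSeries C} :
    v ∈ cutAt W s ↔ v ∈ W ∧ v.coeff s = 0 := by
  simp [cutAt, HahnSeries.coeff.linearMap]

theorem cutAt_le (W : Submodule C (LaurentSeries C)) (s : ℤ) : cutAt W s ≤ W := inf_le_left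

theorem cutAt_lt {W : Submodule C (LaurentSeries C)} {s : ℤ} {v : LaurentSeries C}
    (hv : v ∈ W) (hs : v.coeff s ≠ 0) : cutAt W s < W := by
  refine lt_of_le_of_ne (cutAt_le W s) fun h => ?_
  have : v ∈ cutAt W s := by rw [h]; exact hv
  exact hs (mem_cutAt.mp this).2

theorem finrank_cutAt_lt {W : Submodule C (LaurentSeries C)} [FiniteDimensional C W] {s : ℤ}
    {v : LaurentSeries C} (hv : v ∈ W) (hs : v.coeff s ≠ 0) :
    Module.finrank C (cutAt W s) < Module.finrank C W :=
  Submodule.finrank_lt_finrank_of_lt (cutAt_lt hv hs)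

instance finiteDimensional_cutAt (W : Submodule C (LaurentSeries C)) [FiniteDimensional C W]
    (s : ℤ) : FiniteDimensional C (cutAt W s) :=
  Submodule.finiteDimensional_of_le (cutAt_le W s)

/-- Decomposition of a vector of `W` along a vector `v` with `v.coeff s ≠ 0`. -/
theorem sub_smul_mem_cutAt {W : Submodule C (LaurentSeries C)} {s : ℤ} {v w : LaurentSeries C}
    (hv : v ∈ W) (hs : v.coeff s ≠ 0) (hw : w ∈ W) :
    w - (w.coeff s / v.coeff s) • v ∈ cutAt W s := by
  refine mem_cutAt.mpr ⟨W.sub_mem hw (W.smul_mem _ hv), ?_⟩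
  rw [HahnSeries.coeff_sub, HahnSeries.coeff_smul, smul_eq_mul, div_mul_cancel₀ _ hs, sub_self]

/-- The orders of the nonzero elements of a finite-dimensional space of Laurent series are
bounded above. -/
theorem exists_order_le (W : Submodule C (LaurentSeries C)) [FiniteDimensional C W] :
    ∃ B : ℤ, ∀ v ∈ W, v ≠ 0 → v.order ≤ B := by
  induction' hd : Module.finrank C W using Nat.strong_induction_on with d ih generalizing W
  by_cases hW : ∃ v ∈ W, v ≠ 0
  · obtain ⟨v, hvW, hv0⟩ := hW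
    have hs : v.coeff v.order ≠ 0 := fun h => hv0 (HahnSeries.coeff_order_eq_zero.mp h)
    obtain ⟨B, hB⟩ := ih _ (hd ▸ finrank_cutAt_lt hvW hs) (cutAt W v.order) rfl
    refine ⟨max B v.order, fun w hw hw0 => ?_⟩
    by_cases hc : w.coeff v.order = 0
    · exact (hB w (mem_cutAt.mpr ⟨hw, hc⟩) hw0).trans (le_max_left _ _)
    · exact (HahnSeries.order_le_of_coeff_ne_zero hc).trans (le_max_right _ _)
  · exact ⟨0, fun v hv hv0 => (hW ⟨v, hv, hv0⟩).elim⟩

/-- A nonzero space with bounded orders, stable under `H`, contains a nonzero `H`-fixed vector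
(the vector of maximal order with leading coefficient `1`). -/
theorem exists_fixed_of_order_le (W : Submodule C (LaurentSeries C))
    (hW : ∃ v ∈ W, v ≠ 0) (B : ℤ) (hB : ∀ v ∈ W, v ≠ 0 → v.order ≤ B)
    (H : Set (C →+* C)) (hH : ∀ σ ∈ H, ∀ v ∈ W, coeffMap σ v ∈ W) :
    ∃ v ∈ W, v ≠ 0 ∧ ∀ σ ∈ H, coeffMap σ v = v := by
  classical
  obtain ⟨s, ⟨v₁, hv₁W, hv₁0, hv₁s⟩, hmax⟩ :=
    Int.exists_greatest_of_bdd (P := fun n : ℤ => ∃ v ∈ W, v ≠ 0 ∧ v.order = n)
      ⟨B, fun z ⟨v, hvW, hv0, hvz⟩ => hvz ▸ hB v hvW hv0⟩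
      (by obtain ⟨v, hvW, hv0⟩ := hW; exact ⟨v.order, v, hvW, hv0, rfl⟩)
  have hc : v₁.coeff s ≠ 0 := by
    rw [← hv₁s]
    exact fun h => hv₁0 (HahnSeries.coeff_order_eq_zero.mp h)
  set v : LaurentSeries C := (v₁.coeff s)⁻¹ • v₁ with hv
  have hvW : v ∈ W := W.smul_mem _ hv₁W
  have hvs : v.coeff s = 1 := by
    rw [hv, HahnSeries.coeff_smul, smul_eq_mul, inv_mul_cancel₀ hc]
  have hvlt : ∀ k < s, v.coeff k = 0 := by
    intro k hk
    have h0 : v₁.coeff k = 0 := HahnSeries.coeff_eq_zero_of_lt_order (by rw [hv₁s]; exact hk)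
    rw [hv, HahnSeries.coeff_smul, h0, smul_zero]
  have hv0 : v ≠ 0 := by
    intro h
    rw [h] at hvs
    simp at hvs
  refine ⟨v, hvW, hv0, fun σ hσ => ?_⟩
  by_contra hne
  have hd0 : coeffMap σ v - v ≠ 0 := sub_ne_zero.mpr hne
  have hdW : coeffMap σ v - v ∈ W := W.sub_mem (hH σ hσ v hvW) hvW
  have hle : (coeffMap σ v - v).order ≤ s := hmax _ ⟨_, hdW, hd0, rfl⟩
  have hcoeff : ∀ k ≤ s, (coeffMap σ v - v).coeff k = 0 := by
    intro k hk
    rw [HahnSeries.coeff_sub, coeffMap_coeff]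
    rcases hk.lt_or_eq with h | h
    · rw [hvlt k h, map_zero, sub_zero]
    · rw [h, hvs, map_one, sub_self]
  exact hd0 (HahnSeries.coeff_order_eq_zero.mp (hcoeff _ hle))

/-- **Echelon descent.**  A finite-dimensional space of Laurent series which is stable under a
set `H` of coefficientwise ring endomorphisms is spanned by its `H`-fixed vectors. -/
theorem le_span_fixed (W : Submodule C (LaurentSeries C)) [FiniteDimensional C W]
    (H : Set (C →+* C)) (hH : ∀ σ ∈ H, ∀ v ∈ W, coeffMap σ v ∈ W) :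
    W ≤ Submodule.span C {v | v ∈ W ∧ ∀ σ ∈ H, coeffMap σ v = v} := by
  induction' hd : Module.finrank C W using Nat.strong_induction_on with d ih generalizing W
  by_cases hW : ∃ v ∈ W, v ≠ 0
  · obtain ⟨B, hB⟩ := exists_order_le W
    obtain ⟨v, hvW, hv0, hvfix⟩ := exists_fixed_of_order_le W hW B hB H hH
    have hs : v.coeff v.order ≠ 0 := fun h => hv0 (HahnSeries.coeff_order_eq_zero.mp h)
    have hcut : ∀ σ ∈ H, ∀ w ∈ cutAt W v.order, coeffMap σ w ∈ cutAt W v.order := by
      intro σ hσ w hw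
      obtain ⟨hwW, hw0⟩ := mem_cutAt.mp hw
      exact mem_cutAt.mpr ⟨hH σ hσ w hwW, by rw [coeffMap_coeff, hw0, map_zero]⟩
    have ih' := ih _ (hd ▸ finrank_cutAt_lt hvW hs) (cutAt W v.order) hcut rfl
    intro w hw
    have h1 : w - (w.coeff v.order / v.coeff v.order) • v ∈
        Submodule.span C {v | v ∈ W ∧ ∀ σ ∈ H, coeffMap σ v = v} := by
      refine Submodule.span_mono ?_ (ih' (sub_smul_mem_cutAt hvW hs hw))
      rintro u ⟨hu, hufix⟩
      exact ⟨cutAt_le W _ hu, hufix⟩
    have h2 : (w.coeff v.order / v.coeff v.order) • v ∈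
        Submodule.span C {v | v ∈ W ∧ ∀ σ ∈ H, coeffMap σ v = v} :=
      Submodule.smul_mem _ _ (Submodule.subset_span ⟨hvW, hvfix⟩)
    have := Submodule.add_mem _ h1 h2
    rwa [sub_add_cancel] at this
  · intro w hw
    have : w = 0 := by
      by_contra h
      exact hW ⟨w, hw, h⟩
    rw [this]
    exact Submodule.zero_mem _

end Fermat.Agent.S17.H200
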