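import Fermat.Agent.S17.H200.PlextVal
import Fermat.Agent.S17.H200.EchelonSpan
import Fermat.Agent.S17.H200.AutFix
import Fermat.Agent.S29.H882.Inter
import Fermat.Agent.S29.H32.CoeffDescent
import Fermat.Agent.Lib.RR.Duality

/-!
# G-DIV / PLEXT: a place is determined by its values on the rational functions

`stmtPLEXT : StmtPLEXT N L` for `L` algebraically closed of characteristic zero.

Route (Riemann–Roch, no structure theory of the local rings):
* `W = L(n ∞) ⊆ L((q))` is finite-dimensional and stable under the coefficientwise action of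
  `Aut(L/ℚ)` (which fixes the cusp `∞`), hence spanned by vectors with rational coefficients
  (`le_span_fixed`, `mem_range_of_forall_algEquiv_eq`), i.e. by functions `bcQ u`;
* hence every `f ∈ L(n ∞)` has the same value at `P` and `P'` (both `≠ ∞`);
* for `n > 2g` a function `f ∈ L(n ∞ - P) ∖ L(n ∞ - P - P')` separates `P ≠ P'`;
* the cusp is recognised by a rational function whose only pole is `∞`.
-/

set_option autoImplicit false

noncomputable section

open AlgebraicCurve ModularCurve

namespace Fermat.Agent.S17.H200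

open Fermat.Agent.Lib.RR Fermat.Agent.S17.GDiv Fermat.Agent.S17.H680

variable {N : ℕ} [NeZero N] {L : Type} [Field L] [Algebra ℚ L]

/-! ### Rational Laurent series -/

omit [NeZero N] in
/-- A function in `F_L` all of whose coefficients are rational is of the form `bcQ u`. -/
theorem exists_bcQ_eq_of_coeff_mem_range {v : LaurentSeries L} (hv : v ∈ FL N L)
    (hc : ∀ m : ℤ, v.coeff m ∈ Set.range (algebraMap ℚ L)) :
    ∃ u : modularFunctionFieldFull N, ((bcQ N L u : FL N L) : LaurentSeries L) = v := by
  have h1 : coeffMap (algebraMap ℚ L) (Fermat.Agent.S29.H32.coeffDown (k := ℚ) v) = v :=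
    Fermat.Agent.S29.H32.coeffMap_coeffDown hc
  set y : LaurentSeries ℚ := Fermat.Agent.S29.H32.coeffDown (k := ℚ) v with hy
  have h2 : y ∈ laurentBaseChange ℚ (modularFunctionFieldFull N) := by
    apply Fermat.Agent.S29.H882.mem_laurentBaseChange_of_coeffMap_mem (algebraMap ℚ L)
    rw [h1]
    exact hv
  have h3 : y ∈ modularFunctionFieldFull N := by
    have hle : laurentBaseChange ℚ (modularFunctionFieldFull N) ≤ modularFunctionFieldFull N := by
      unfold laurentBaseChange
      rw [IntermediateField.adjoin_le_iff]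
      rintro _ ⟨z, hz, rfl⟩
      have : coeffEmb ℚ z = z := by
        ext m
        simp
      rw [this]
      exact hz
    exact hle h2
  exact ⟨⟨y, h3⟩, h1⟩

/-! ### The image of `L(D)` in the Laurent series -/

omit [Algebra ℚ L] in
/-- The coefficientwise scalar multiplication on Laurent series is multiplication by the
constant. -/
theorem hahn_smul_eq (c : L) (v : LaurentSeries L) :
    c • v = algebraMap L (LaurentSeries L) c * v := by
  rw [algebraMap_laurentSeries_eq_single, HahnSeries.single_zero_mul_eq_smul]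

omit [NeZero N] in
theorem coe_smul_FL (c : L) (f : FL N L) :
    ((c • f : FL N L) : LaurentSeries L) = c • (f : LaurentSeries L) := by
  rw [hahn_smul_eq, Algebra.smul_def]
  rfl

/-- The inclusion `F_L → L((q))` as an `L`-linear map (coefficientwise module structure on the
target). -/
def inclL (N : ℕ) (L : Type) [Field L] [Algebra ℚ L] : FL N L →ₗ[L] LaurentSeries L where
  toFun f := (f : LaurentSeries L)
  map_add' _ _ := rfl
  map_smul' c f := by
    show ((c • f : FL N L) : LaurentSeries L) = c • (f : LaurentSeries L)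
    exact coe_smul_FL c f

omit [NeZero N] in
@[simp]
theorem inclL_apply (f : FL N L) : inclL N L f = (f : LaurentSeries L) := rfl

/-- The image of `L(D)` in `L((q))`. -/
def imgL (D : Divisor L (FL N L)) : Submodule L (LaurentSeries L) :=
  (riemannRochSpace D).map (inclL N L)

omit [NeZero N] in
theorem mem_imgL {D : Divisor L (FL N L)} {v : LaurentSeries L} :
    v ∈ imgL D ↔ ∃ f : FL N L, f ∈ riemannRochSpace D ∧ (f : LaurentSeries L) = v := by
  simp only [imgL, Submodule.mem_map, inclL_apply]

section FF1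

variable [FF1 L (FL N L)]

omit [NeZero N] in
instance finiteDimensional_imgL (D : Divisor L (FL N L)) : FiniteDimensional L (imgL D) :=
  Module.Finite.map _ _

/-- `L(n ∞)` is stable under the coefficientwise Galois action. -/
theorem arithmeticGalois_smul_mem_L_cusp (σ : L ≃ₐ[ℚ] L) (n : ℕ) {f : FL N L}
    (hf : f ∈ riemannRochSpace (n • prim (cuspL N L))) :
    arithmeticGalois (modularFunctionFieldFull N) σ • f ∈
      riemannRochSpace (n • prim (cuspL N L)) := by
  have h := smul_mem_L (arithmeticGalois (modularFunctionFieldFull N) σ) hf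
  have e : arithmeticGalois (modularFunctionFieldFull N) σ • (n • prim (cuspL N L))
      = n • prim (cuspL N L) := by
    rw [smul_comm, smul_prim]
    unfold cuspL
    rw [arithmeticGalois_smul_cuspInf]
  rwa [e] at h

variable [IsAlgClosed L]

/-- **Rational span of `L(n ∞)`** in the form of an induction principle: a property of functions
which is stable under `L`-linear combinations and holds for the functions `bcQ u ∈ L(n ∞)` holds
on all of `L(n ∞)`. -/
theorem induction_L_cusp (n : ℕ) (p : FL N L → Prop) (h0 : p 0)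
    (hadd : ∀ f g, p f → p g → p (f + g)) (hsmul : ∀ (a : L) f, p f → p (a • f))
    (hgen : ∀ u : modularFunctionFieldFull N,
      bcQ N L u ∈ riemannRochSpace (n • prim (cuspL N L)) → p (bcQ N L u)) :
    ∀ f ∈ riemannRochSpace (n • prim (cuspL N L)), p f := by
  intro f hf
  set W := imgL (n • prim (cuspL N L)) with hW
  set H : Set (L →+* L) := Set.range fun σ : L ≃ₐ[ℚ] L => (σ : L →+* L) with hH
  have hstab : ∀ σ ∈ H, ∀ v ∈ W, coeffMap σ v ∈ W := by
    rintro _ ⟨σ, rfl⟩ v hv
    obtain ⟨f', hf', rfl⟩ := mem_imgL.mp hv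
    exact mem_imgL.mpr ⟨_, arithmeticGalois_smul_mem_L_cusp σ n hf',
      coe_arithmeticGalois_smul _ σ f'⟩
  have hspan := le_span_fixed W H hstab
  have hfW : (f : LaurentSeries L) ∈ W := mem_imgL.mpr ⟨f, hf, rfl⟩
  have key : ∀ v ∈ Submodule.span L {v | v ∈ W ∧ ∀ σ ∈ H, coeffMap σ v = v},
      ∃ hv : v ∈ FL N L, p ⟨v, hv⟩ := by
    intro v hv
    induction hv using Submodule.span_induction with
    | mem v hv =>
      obtain ⟨hvW, hvfix⟩ := hv
      obtain ⟨f', hf', rfl⟩ := mem_imgL.mp hvW
      have hc : ∀ m : ℤ, (f' : LaurentSeries L).coeff m ∈ Set.range (algebraMap ℚ L) := by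
        intro m
        apply mem_range_of_forall_algEquiv_eq
        intro σ
        have := congrArg (fun z : LaurentSeries L => z.coeff m) (hvfix _ ⟨σ, rfl⟩)
        simpa using this
      obtain ⟨u, hu⟩ := exists_bcQ_eq_of_coeff_mem_range f'.2 hc
      have hu' : bcQ N L u = f' := Subtype.ext hu
      refine ⟨f'.2, ?_⟩
      have := hgen u (by rw [hu']; exact hf')
      rwa [hu'] at this
    | zero => exact ⟨zero_mem _, h0⟩
    | add v w _ _ hv hw =>
      obtain ⟨hv1, hv2⟩ := hv
      obtain ⟨hw1, hw2⟩ := hw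
      exact ⟨add_mem hv1 hw1, hadd _ _ hv2 hw2⟩
    | smul a v _ hv =>
      obtain ⟨hv1, hv2⟩ := hv
      have e : a • v = ((a • (⟨v, hv1⟩ : FL N L) : FL N L) : LaurentSeries L) :=
        (coe_smul_FL a ⟨v, hv1⟩).symm
      refine ⟨e ▸ (a • (⟨v, hv1⟩ : FL N L)).2, ?_⟩
      have := hsmul a _ hv2
      convert this using 1
      exact Subtype.ext e
  obtain ⟨_, h⟩ := key _ (hspan hfW)
  exact h

omit [NeZero N] [FF1 L (FL N L)] [IsAlgClosed L] in
theorem nsmul_prim_apply_of_ne (n : ℕ) {v P : Place L (FL N L)} (hP : P ≠ v) :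
    (n • prim v) P = 0 := by
  rw [Finsupp.smul_apply, prim_apply_of_ne hP, smul_zero]

omit [NeZero N] [FF1 L (FL N L)] [IsAlgClosed L] in
theorem bcQ_inv (u : modularFunctionFieldFull N) : bcQ N L u⁻¹ = (bcQ N L u)⁻¹ := by
  apply Subtype.ext
  rw [IntermediateField.coe_inv, coe_bcQ, coe_bcQ, IntermediateField.coe_inv, map_inv₀]

/-- Every function of `L(n ∞)` has the same value at `P` and `P'`. -/
theorem exists_common_value {P P' : Place L (FL N L)} (hP : P ≠ cuspL N L)
    (h : ∀ (u : modularFunctionFieldFull N) (c : L),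
      HasValue P (bcQ N L u) c → HasValue P' (bcQ N L u) c) (n : ℕ) :
    ∀ f ∈ riemannRochSpace (n • prim (cuspL N L)), ∃ c, HasValue P f c ∧ HasValue P' f c := by
  apply induction_L_cusp n (fun f => ∃ c, HasValue P f c ∧ HasValue P' f c)
  · exact ⟨0, hasValue_zero P, hasValue_zero P'⟩
  · rintro f g ⟨c, hc, hc'⟩ ⟨d, hd, hd'⟩
    exact ⟨c + d, HasValue.add hc hd, HasValue.add hc' hd'⟩
  · rintro a f ⟨c, hc, hc'⟩
    exact ⟨a * c, HasValue.smul hc a, HasValue.smul hc' a⟩
  · intro u hu
    have := (mem_L_iff.mp hu) P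
    rw [nsmul_prim_apply_of_ne n hP, neg_zero] at this
    obtain ⟨c, hc⟩ := exists_hasValue this
    exact ⟨c, hc, h u c hc⟩

/-- If `ℓ(n ∞) ≥ 2`, some rational function of `L(n ∞)` has a pole at the cusp. -/
theorem exists_bcQ_pole (n : ℕ) (hn : 2 ≤ ell (n • prim (cuspL N L))) :
    ∃ u : modularFunctionFieldFull N,
      bcQ N L u ∈ riemannRochSpace (n • prim (cuspL N L)) ∧
        (cuspL N L).ord (bcQ N L u) < 0 := by
  by_contra hcon
  simp only [not_exists, not_and, not_lt] at hcon
  have hall : ∀ f ∈ riemannRochSpace (n • prim (cuspL N L)),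
      f ∈ (cuspL N L).toValuationSubring := by
    apply induction_L_cusp n (fun f => f ∈ (cuspL N L).toValuationSubring)
    · exact zero_mem _
    · intro f g hf hg
      exact add_mem hf hg
    · intro a f hf
      rw [Algebra.smul_def]
      exact mul_mem ((cuspL N L).algebraMap_mem' a) hf
    · intro u hu
      exact mem_of_ord_nonneg _ (hcon u hu)
  have hle : riemannRochSpace (n • prim (cuspL N L)) ≤
      riemannRochSpace (0 : Divisor L (FL N L)) := by
    intro f hf
    have hf' := hf
    rw [mem_L_iff] at hf ⊢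
    intro v
    by_cases hv : v = cuspL N L
    · subst hv
      right
      rw [Finsupp.zero_apply, neg_zero]
      exact ord_nonneg_of_mem _ (hall f hf')
    · have := hf v
      rwa [nsmul_prim_apply_of_ne n hv] at this
  have h1 : ell (n • prim (cuspL N L)) ≤ ell (0 : Divisor L (FL N L)) :=
    Submodule.finrank_mono hle
  rw [ell_zero] at h1
  omega

omit [NeZero N] [IsAlgClosed L] in
theorem degree_nsmul_cusp (v : Place L (FL N L)) (n : ℕ) :
    Divisor.degree (n • prim v) = n := by
  rw [map_nsmul, degree_prim _ (deg_eq_one _), nsmul_eq_mul, mul_one]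

omit [NeZero N] [FF1 L (FL N L)] [IsAlgClosed L] in
theorem sub_prim_apply_self (D : Divisor L (FL N L)) (P : Place L (FL N L)) :
    (D - prim P) P = D P - 1 := by
  rw [Finsupp.sub_apply, prim_apply_self]

omit [NeZero N] [FF1 L (FL N L)] [IsAlgClosed L] in
theorem sub_prim_apply_of_ne (D : Divisor L (FL N L)) {P v : Place L (FL N L)} (h : v ≠ P) :
    (D - prim P) v = D v := by
  rw [Finsupp.sub_apply, prim_apply_of_ne h, sub_zero]

omit [NeZero N] [FF1 L (FL N L)] [IsAlgClosed L] in
theorem sub_prim_le (D : Divisor L (FL N L)) (P : Place L (FL N L)) : D - prim P ≤ D := by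
  rw [Finsupp.le_def]
  intro v
  by_cases hv : v = P
  · subst hv
    rw [sub_prim_apply_self]
    omega
  · rw [sub_prim_apply_of_ne D hv]

omit [NeZero N] [IsAlgClosed L] in
/-- Riemann–Roch: if `deg D > 2g`, some function of `L(D - P)` is not in `L(D - P - P')`. -/
theorem exists_mem_not_mem (D : Divisor L (FL N L))
    (hD : 2 * (genusFF L (FL N L) : ℤ) < Divisor.degree D) (P P' : Place L (FL N L)) :
    ∃ f ∈ riemannRochSpace (D - prim P), f ∉ riemannRochSpace (D - prim P - prim P') := by
  have hd1 : Divisor.degree (D - prim P) = Divisor.degree D - 1 := by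
    rw [map_sub, degree_prim _ (deg_eq_one _)]
  have hd2 : Divisor.degree (D - prim P - prim P') = Divisor.degree D - 2 := by
    rw [map_sub, hd1, degree_prim _ (deg_eq_one _)]
    ring
  have he1 := ell_eq_of_degree_gt (D := D - prim P) (by rw [hd1]; omega)
  have he2 := ell_eq_of_degree_gt (D := D - prim P - prim P') (by rw [hd2]; omega)
  rw [hd1] at he1
  rw [hd2] at he2
  by_contra hcon
  simp only [not_exists, not_and, not_not] at hcon
  have hle : riemannRochSpace (D - prim P) ≤ riemannRochSpace (D - prim P - prim P') := hcon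
  have h3 : ell (D - prim P) ≤ ell (D - prim P - prim P') := Submodule.finrank_mono hle
  omega

omit [FF1 L (FL N L)] [IsAlgClosed L] in
/-- The cusp case of PLEXT. -/
theorem plext_cusp {P' : Place L (FL N L)}
    (h : ∀ (u : modularFunctionFieldFull N) (c : L),
      HasValue (cuspL N L) (bcQ N L u) c → HasValue P' (bcQ N L u) c)
    {n : ℕ} {u : modularFunctionFieldFull N}
    (huL : bcQ N L u ∈ riemannRochSpace (n • prim (cuspL N L)))
    (hupole : (cuspL N L).ord (bcQ N L u) < 0) : P' = cuspL N L := by
  have hx0 : bcQ N L u ≠ 0 := ne_zero_of_ord_ne_zero (cuspL N L) (by omega)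
  by_contra hP'
  have hv : HasValue (cuspL N L) (bcQ N L u⁻¹) 0 := by
    rw [hasValue_zero_iff, bcQ_inv]
    right
    rw [Place.ord_inv]
    omega
  have hv' := h _ _ hv
  rw [hasValue_zero_iff, bcQ_inv] at hv'
  rcases hv' with h0 | hpos
  · exact hx0 (inv_eq_zero.mp h0)
  · rw [Place.ord_inv] at hpos
    have := (mem_L_iff.mp huL) P'
    rw [nsmul_prim_apply_of_ne n hP', neg_zero] at this
    rcases this with h0 | h1
    · exact hx0 h0
    · omega

omit [NeZero N] [FF1 L (FL N L)] [IsAlgClosed L] in
/-- A function with a pole at `v` has no value at `v`. -/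
theorem not_hasValue_of_ord_neg {v : Place L (FL N L)} {x : FL N L} (hx : v.ord x < 0) (c : L) :
    ¬ HasValue v x c := by
  have hx0 : x ≠ 0 := ne_zero_of_ord_ne_zero v (by omega)
  intro hc
  rcases eq_or_ne c 0 with rfl | hc0
  · rw [hasValue_zero_iff] at hc
    rcases hc with h0 | h1
    · exact hx0 h0
    · omega
  · have hC : algebraMap L (FL N L) c ≠ 0 := by rwa [Ne, map_eq_zero]
    have hord : v.ord (x - algebraMap L (FL N L) c) = v.ord x := by
      rw [sub_eq_add_neg]
      apply ord_add_eq_of_lt _ hx0 (neg_ne_zero.mpr hC)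
      rw [ord_neg, ord_algebraMap]
      exact hx
    rcases hc with h0 | h1
    · rw [sub_eq_zero] at h0
      rw [h0, ord_algebraMap] at hx
      exact lt_irrefl _ hx
    · rw [hord] at h1
      omega

/-- The separation step of PLEXT. -/
theorem plext_sep {P P' : Place L (FL N L)} (hP : P ≠ cuspL N L) (hP' : P' ≠ cuspL N L)
    (h : ∀ (u : modularFunctionFieldFull N) (c : L),
      HasValue P (bcQ N L u) c → HasValue P' (bcQ N L u) c)
    {n : ℕ} (hn : 2 * (genusFF L (FL N L) : ℤ) < n) : P = P' := by
  by_contra hne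
  have hne' : P' ≠ P := fun h' => hne h'.symm
  have hcv := exists_common_value hP h n
  obtain ⟨f, hf1, hf2⟩ := exists_mem_not_mem (n • prim (cuspL N L))
    (by rw [degree_nsmul_cusp]; exact hn) P P'
  have hfL : f ∈ riemannRochSpace (n • prim (cuspL N L)) := L_mono (sub_prim_le _ P) hf1
  obtain ⟨c, hc, hc'⟩ := hcv f hfL
  have hfP : HasValue P f 0 := by
    rw [hasValue_zero_iff]
    have := (mem_L_iff.mp hf1) P
    rw [sub_prim_apply_self, nsmul_prim_apply_of_ne n hP] at this
    exact this.imp id fun h => by omega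
  have hc0 : c = 0 := HasValue.unique hc hfP
  rw [hc0] at hc'
  have hfP' : VanishesAt P' f := hasValue_zero_iff.mp hc'
  apply hf2
  rw [mem_L_iff]
  intro v
  by_cases hv : v = P'
  · rw [hv, sub_prim_apply_self, sub_prim_apply_of_ne _ hne', nsmul_prim_apply_of_ne n hP']
    exact hfP'.imp id fun h => by omega
  · have := (mem_L_iff.mp hf1) v
    rwa [sub_prim_apply_of_ne _ hv]

/-- **PLEXT**: a place of `F_L` is determined by its values on the functions with rational
`q`-expansion. -/
theorem stmtPLEXT : StmtPLEXT N L := by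
  intro P P' h
  obtain ⟨n, hn⟩ : ∃ n : ℕ, n = 2 * genusFF L (FL N L) + 2 := ⟨_, rfl⟩
  have hell := ell_eq_of_degree_gt (D := n • prim (cuspL N L))
    (by rw [degree_nsmul_cusp]; omega)
  rw [degree_nsmul_cusp] at hell
  have h2 : 2 ≤ ell (n • prim (cuspL N L)) := by omega
  obtain ⟨u, huL, hupole⟩ := exists_bcQ_pole n h2
  by_cases hP : P = cuspL N L
  · rw [hP] at h ⊢
    exact (plext_cusp h huL hupole).symm
  · have hP' : P' ≠ cuspL N L := by
      intro hP'
      obtain ⟨c, -, hc'⟩ := exists_common_value hP h n _ huL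
      rw [hP'] at hc'
      exact not_hasValue_of_ord_neg hupole c hc'
    exact plext_sep hP hP' h (n := n) (by omega)

end FF1

end Fermat.Agent.S17.H200
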