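import Fermat.Agent.S17.GDiv.Defs

/-!
# G-DIV / PLEXT, part 1: values of functions at places (small calculus)

`VanishesAt P` is the maximal ideal of `P`, `HasValue P f c` is "`f ≡ c` modulo the maximal
ideal".  We prove existence (for functions regular at `P`), uniqueness and linearity of values.
-/

set_option autoImplicit false

noncomputable section

open AlgebraicCurve ModularCurve

namespace Fermat.Agent.S17.H200

open Fermat.Agent.Lib.RR Fermat.Agent.S17.GDiv

variable {N : ℕ} [NeZero N] {L : Type} [Field L] [Algebra ℚ L]

omit [NeZero N] in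
theorem vanishesAt_zero (P : Place L (FL N L)) : VanishesAt P (0 : FL N L) := Or.inl rfl

omit [NeZero N] in
theorem VanishesAt.add {P : Place L (FL N L)} {f g : FL N L} (hf : VanishesAt P f)
    (hg : VanishesAt P g) : VanishesAt P (f + g) := by
  have h := ord_add_of_le P (n := 1)
    (hf.imp id fun h => by omega) (hg.imp id fun h => by omega)
  exact h.imp id fun h => by omega

omit [NeZero N] in
theorem VanishesAt.smul {P : Place L (FL N L)} {f : FL N L} (hf : VanishesAt P f) (a : L) :
    VanishesAt P (a • f) := by
  rcases hf with rfl | hf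
  · left; rw [smul_zero]
  rcases eq_or_ne a 0 with rfl | ha
  · left; rw [zero_smul]
  right
  have hf0 : f ≠ 0 := ne_zero_of_ord_ne_zero P (by omega)
  have ha0 : algebraMap L (FL N L) a ≠ 0 := by
    rwa [Ne, map_eq_zero]
  rw [Algebra.smul_def, P.ord_mul ha0 hf0, ord_algebraMap]
  omega

omit [NeZero N] in
theorem VanishesAt.neg {P : Place L (FL N L)} {f : FL N L} (hf : VanishesAt P f) :
    VanishesAt P (-f) := by
  rcases hf with rfl | hf
  · left; rw [neg_zero]
  · right; rwa [ord_neg]

omit [NeZero N] in
theorem not_vanishesAt_algebraMap {P : Place L (FL N L)} {a : L} (ha : a ≠ 0) :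
    ¬ VanishesAt P (algebraMap L (FL N L) a) := by
  rintro (h | h)
  · exact ha ((map_eq_zero _).mp h)
  · rw [ord_algebraMap] at h
    exact lt_irrefl _ h

omit [NeZero N] in
theorem hasValue_zero (P : Place L (FL N L)) : HasValue P (0 : FL N L) 0 := by
  unfold HasValue
  rw [map_zero, sub_zero]
  exact vanishesAt_zero P

omit [NeZero N] in
theorem HasValue.add {P : Place L (FL N L)} {f g : FL N L} {c d : L} (hf : HasValue P f c)
    (hg : HasValue P g d) : HasValue P (f + g) (c + d) := by
  unfold HasValue at *
  have := VanishesAt.add hf hg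
  rwa [show f - algebraMap L (FL N L) c + (g - algebraMap L (FL N L) d)
    = f + g - algebraMap L (FL N L) (c + d) by rw [map_add]; ring] at this

omit [NeZero N] in
theorem HasValue.smul {P : Place L (FL N L)} {f : FL N L} {c : L} (hf : HasValue P f c)
    (a : L) : HasValue P (a • f) (a * c) := by
  unfold HasValue at *
  have := VanishesAt.smul hf a
  rwa [show a • (f - algebraMap L (FL N L) c) = a • f - algebraMap L (FL N L) (a * c) by
    rw [smul_sub, map_mul, Algebra.smul_def a (algebraMap L (FL N L) c)]] at this

omit [NeZero N] in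
theorem HasValue.unique {P : Place L (FL N L)} {f : FL N L} {c d : L} (hc : HasValue P f c)
    (hd : HasValue P f d) : c = d := by
  by_contra hne
  unfold HasValue at *
  have h := VanishesAt.add hd (VanishesAt.neg hc)
  rw [show f - algebraMap L (FL N L) d + -(f - algebraMap L (FL N L) c)
    = algebraMap L (FL N L) (c - d) by rw [map_sub]; ring] at h
  exact not_vanishesAt_algebraMap (sub_ne_zero.mpr hne) h

omit [NeZero N] in
theorem hasValue_zero_iff {P : Place L (FL N L)} {f : FL N L} :
    HasValue P f 0 ↔ VanishesAt P f := by
  unfold HasValue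
  rw [map_zero, sub_zero]

variable [FF1 L (FL N L)]

omit [NeZero N] in
/-- A function which is regular at `P` has a value at `P`. -/
theorem exists_hasValue {P : Place L (FL N L)} {f : FL N L} (hf : f = 0 ∨ 0 ≤ P.ord f) :
    ∃ c : L, HasValue P f c := by
  have hf' : 0 ≤ P.ord f := by
    rcases hf with rfl | h
    · rw [Place.ord_zero]
    · exact h
  exact exists_const_sub P (deg_eq_one P) hf'

end Fermat.Agent.S17.H200
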