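import Fermat.Agent.S17.H200.WeilSpan
import Fermat.Agent.S17.H380.WallHt
import Fermat.Agent.S17.H710.Wall.E3
import Fermat.Agent.S17.H260.WallLeaves

/-!
# S17 / tower H — GAUSS leaf WEIL (helper200)

`weilStatement : Big E → H290.WeilStatement E` (`K` of characteristic `0`, algebraic over `ℚ`):
Weil's height machine for a fixed finite family `G` of forms of degree `e` with exact common
zero divisor `Z ≥ 0`,

  `| h(G(pt P)) − e h(pt P) + (Z . P) | ≤ C`   for all places `P ∉ Z`.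

Proof.  `Z = Σ_{i<z} Bᵢ`.  The two families of forms of degree `N = 2e + z + 2`

* `𝒜 (l, γ) = G l * monoOrd γ`,  `|γ| = e + z + 2`,
* `ℬ (s, δ) = secProd (pt ∘ B) s * monoOrd δ`,  `|δ| = 2e + 2`,

have sections spanning the same space `L(N m∞ − Z)` (`WeilSpan.lean`), hence their vectors of
values at `pt P` are related by FIXED matrices (`exists_matrices`), and
`|h(𝒜(pt P)) − h(ℬ(pt P))| ≤ C` (`H380.absLogHeight_linearMap_apply_le`).  By the exact Segre
formulas (`H380.htWCol`, `H380.htBetaCol`)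
`h(𝒜(pt P)) = h(G(pt P)) + (e + z + 2) h(pt P)` and
`h(ℬ(pt P)) = Σᵢ h(pt Bᵢ ∧ pt P) + (2e + 2) h(pt P)
            = Σᵢ h(pt Bᵢ) + (2e + z + 2) h(pt P) − (Z . P)`.
-/

set_option autoImplicit false
set_option linter.unusedSectionVars false

noncomputable section

open AlgebraicCurve MvPolynomial

namespace Fermat.Agent.S17.H200

open Fermat.Agent.Lib.RR Fermat.Agent.S17.HWall Fermat.Agent.S17.H710 Fermat.Agent.S17.Wall
open Fermat.Agent.S17.HContract Fermat.Agent.S17.H290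

variable {K F : Type*} [Field K] [CharZero K] [Field F] [Algebra K F] [FF1 K F]

/-- The height comparison, for families of values related by fixed matrices. -/
theorem weil_bound [Algebra.IsAlgebraic ℚ K] (E : EmbData K F) {ι : Type} [Fintype ι] (e : ℕ)
    (G : ι → MvPolynomial (Fin (E.r + 1)) K) {z : ℕ} (B : Fin z → Place K F) (t t' : ℕ)
    (htt : e + t = z + t')
    (M : (ι × (Fin t → Fin (E.r + 1))) ×
          ((Fin z → Fin (E.r + 1) × Fin (E.r + 1)) × (Fin t' → Fin (E.r + 1))) → K)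
    (M' : ((Fin z → Fin (E.r + 1) × Fin (E.r + 1)) × (Fin t' → Fin (E.r + 1))) ×
          (ι × (Fin t → Fin (E.r + 1))) → K)
    (hM : ∀ (P : Place K F) (q : ι × (Fin t → Fin (E.r + 1))),
        eval (E.pt P) (G q.1 * monoOrd q.2) =
          ∑ j, M (q, j) * eval (E.pt P) (secProd (fun i => E.pt (B i)) j.1 * monoOrd j.2))
    (hM' : ∀ (P : Place K F)
        (j : (Fin z → Fin (E.r + 1) × Fin (E.r + 1)) × (Fin t' → Fin (E.r + 1))),
        eval (E.pt P) (secProd (fun i => E.pt (B i)) j.1 * monoOrd j.2) =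
          ∑ q, M' (j, q) * eval (E.pt P) (G q.1 * monoOrd q.2)) :
    ∃ C : ℝ, ∀ P : Place K F, (∀ i, B i ≠ P) →
      |ht (fun p => eval (E.pt P) (G p)) - (e : ℝ) * ht (E.pt P) + ∑ i, hD E (B i) P| ≤ C := by
  classical
  have hint : ∀ a : K, IsIntegral ℚ a := fun a => Algebra.IsIntegral.isIntegral a
  refine ⟨|Real.log (Nat.card
      ((Fin z → Fin (E.r + 1) × Fin (E.r + 1)) × (Fin t' → Fin (E.r + 1)))) + ht M| +
    |Real.log (Nat.card (ι × (Fin t → Fin (E.r + 1)))) + ht M'| +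
    |∑ i, ht (E.pt (B i))|, fun P hne => ?_⟩
  have hpt : E.pt P ≠ 0 := H440.pt_ne_zero E P
  have hw : ∀ i, wedge (E.pt (B i)) (E.pt P) ≠ 0 := fun i =>
    H440.wedge_pt_pt_ne_zero E (hne i)
  -- the `ℬ`-values
  obtain ⟨ψB, hψB⟩ : ∃ ψ : (Fin z → Fin (E.r + 1) × Fin (E.r + 1)) → K,
      ψ = betaCol (fun i => E.pt (B i)) (fun _ => E.pt P) := ⟨_, rfl⟩
  have hψB0 : ψB ≠ 0 := hψB ▸ betaCol_ne_zero _ _ hw
  have hhB : ht ψB = ∑ i, ht (wedge (E.pt (B i)) (E.pt P)) := by
    rw [hψB]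
    exact Fermat.Agent.S17.H380.htBetaCol K _ _ _ _ hw
  obtain ⟨bv, hbv⟩ : ∃ bv :
      (Fin z → Fin (E.r + 1) × Fin (E.r + 1)) × (Fin t' → Fin (E.r + 1)) → K,
      bv = fun j => ψB j.1 * ∏ k, E.pt P (j.2 k) := ⟨_, rfl⟩
  have hbv0 : bv ≠ 0 := hbv ▸ tensorPow_ne_zero ψB (E.pt P) hψB0 hpt
  have hhbv : ht bv = ht ψB + (t' : ℝ) * ht (E.pt P) := by
    rw [hbv]
    exact Fermat.Agent.S17.H380.htWCol K _ _ _ ψB (E.pt P) hψB0 hpt
  have hbeval : ∀ j, eval (E.pt P) (secProd (fun i => E.pt (B i)) j.1 * monoOrd j.2) = bv j := by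
    intro j
    rw [hbv, hψB, map_mul, eval_secProd, eval_monoOrd]
    rfl
  -- the `𝒜`-values
  obtain ⟨v, hv⟩ : ∃ v : ι → K, v = fun p => eval (E.pt P) (G p) := ⟨_, rfl⟩
  obtain ⟨av, hav⟩ : ∃ av : ι × (Fin t → Fin (E.r + 1)) → K,
      av = fun q => v q.1 * ∏ k, E.pt P (q.2 k) := ⟨_, rfl⟩
  have haeval : ∀ q, eval (E.pt P) (G q.1 * monoOrd q.2) = av q := by
    intro q
    rw [hav, hv, map_mul, eval_monoOrd]
  have h1 : av = fun q => ∑ j, M (q, j) * bv j := by
    funext q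
    rw [← haeval, hM P q]
    exact Finset.sum_congr rfl fun j _ => by rw [hbeval]
  have h2 : bv = fun j => ∑ q, M' (j, q) * av q := by
    funext j
    rw [← hbeval, hM' P j]
    exact Finset.sum_congr rfl fun q _ => by rw [haeval]
  have hv0 : v ≠ 0 := by
    intro h0
    apply hbv0
    rw [h2]
    funext j
    rw [Pi.zero_apply]
    refine Finset.sum_eq_zero fun q _ => ?_
    rw [hav, h0]
    simp
  have hhav : ht av = ht v + (t : ℝ) * ht (E.pt P) := by
    rw [hav]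
    exact Fermat.Agent.S17.H380.htWCol K _ _ _ v (E.pt P) hv0 hpt
  have b1 : ht av ≤ Real.log (Nat.card
      ((Fin z → Fin (E.r + 1) × Fin (E.r + 1)) × (Fin t' → Fin (E.r + 1)))) + ht M + ht bv := by
    have := Fermat.Agent.S17.H380.absLogHeight_linearMap_apply_le M bv (fun _ => hint _)
      (fun _ => hint _)
    rw [← h1] at this
    exact this
  have b2 : ht bv ≤ Real.log (Nat.card (ι × (Fin t → Fin (E.r + 1)))) + ht M' + ht av := by
    have := Fermat.Agent.S17.H380.absLogHeight_linearMap_apply_le M' av (fun _ => hint _)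
      (fun _ => hint _)
    rw [← h2] at this
    exact this
  have hsum : ∑ i, hD E (B i) P =
      ∑ i, ht (E.pt (B i)) + (z : ℝ) * ht (E.pt P) - ht ψB := by
    unfold hD
    rw [Finset.sum_sub_distrib, Finset.sum_add_distrib, hhB]
    simp
  have hcast : (e : ℝ) + (t : ℝ) = (z : ℝ) + (t' : ℝ) := by exact_mod_cast htt
  rw [hsum, ← hv]
  have a1 := le_abs_self (Real.log (Nat.card
      ((Fin z → Fin (E.r + 1) × Fin (E.r + 1)) × (Fin t' → Fin (E.r + 1)))) + ht M)
  have a2 := le_abs_self (Real.log (Nat.card (ι × (Fin t → Fin (E.r + 1)))) + ht M')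
  have a3 := abs_le.mp (le_refl |∑ i, ht (E.pt (B i))|)
  have a4 := abs_nonneg (Real.log (Nat.card
      ((Fin z → Fin (E.r + 1) × Fin (E.r + 1)) × (Fin t' → Fin (E.r + 1)))) + ht M)
  have a5 := abs_nonneg (Real.log (Nat.card (ι × (Fin t → Fin (E.r + 1)))) + ht M')
  have key : ht v - (e : ℝ) * ht (E.pt P) +
      (∑ i, ht (E.pt (B i)) + (z : ℝ) * ht (E.pt P) - ht ψB) =
      (ht av - ht bv) + ∑ i, ht (E.pt (B i)) +
        ((z : ℝ) + (t' : ℝ) - ((e : ℝ) + (t : ℝ))) * ht (E.pt P) := by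
    rw [hhav, hhbv]
    ring
  rw [key, hcast, sub_self, zero_mul, add_zero, abs_le]
  constructor <;> linarith [a3.1, a3.2]

/-- **GG-2 (WEIL'S HEIGHT MACHINE for a fixed family).** -/
theorem weilStatement [Algebra.IsAlgebraic ℚ K] (E : EmbData K F) (hBig : Big E) :
    WeilStatement E := by
  classical
  intro ι _ e G Z hG hZ hex
  obtain ⟨z, hz⟩ : ∃ z : ℕ, Divisor.degree Z = z :=
    ⟨(Divisor.degree Z).toNat, (Int.toNat_of_nonneg (degree_nonneg hZ)).symm⟩
  obtain ⟨B, rfl⟩ := Fermat.Agent.S17.H260.enumStatement K F Z hZ z hz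
  obtain ⟨M, M', hM, hM'⟩ := exists_matrices E hBig e G hG B hex
  obtain ⟨C, hC⟩ := weil_bound E e G B (e + z + 1 + 1) (2 * e + 1 + 1) (by omega) M M' hM hM'
  refine ⟨C, fun P hP => ?_⟩
  rw [pairPt_sum_prim]
  refine hC P fun i h => ?_
  have h1 : (1 : ℤ) ≤ (∑ l, prim (B l) : Divisor K F) (B i) := by
    rw [Finsupp.finsetSum_apply]
    have h2 : ∀ l ∈ (Finset.univ : Finset (Fin z)), (0 : ℤ) ≤ (prim (B l) : Divisor K F) (B i) := by
      intro l _
      unfold prim
      rw [Finsupp.single_apply]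
      split_ifs <;> simp
    have h3 := Finset.single_le_sum h2 (Finset.mem_univ i)
    have h4 : (prim (B i) : Divisor K F) (B i) = 1 := by
      unfold prim; simp
    rw [h4] at h3
    exact h3
  rw [h] at h1
  omega

end Fermat.Agent.S17.H200
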