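import Fermat.Agent.S17.H290.GaussDefs
import Fermat.Agent.S17.H317.MinorA
import Fermat.Agent.Lib.RR.H259.Mult
import Fermat.Agent.S17.H440.PtCone

/-!
# S17 / tower H — GAUSS leaf WEIL, geometric part (helper200)

`E : EmbData K F`, `G l` forms of degree `e` with exact common zero divisor `Z = Σ prim (B i)`.
Two families of forms of the same degree `N = e + t = z + t'`:

* `𝒜 (l, γ) = G l * monoOrd γ`          (`γ : Fin t → Fin n`),
* `ℬ (s, δ) = secProd (pt ∘ B) s * monoOrd δ`   (`δ : Fin t' → Fin n`),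

whose sections `aeval E.x _` span the SAME space `L(N m ∞ − Z)`:

* `span_secMono`  : the `ℬ`-sections span `L(t' m∞ + z m∞ − Σ Bᵢ)` (products span, `H317`);
* `le_span_formMono` : `L(t m∞ + (e m∞ − Z)) ≤ span` of the `𝒜`-sections (base point free pencil
  inside `span (aeval E.x (G l))`, pencil trick `Lib/RR/H259`).

Hence fixed matrices `M`, `M'` with `𝒜(pt P) = M ℬ(pt P)`, `ℬ(pt P) = M' 𝒜(pt P)` for ALL places
`P` (`exists_matrices`), by `OnCone E.x (E.pt P)`.
-/

set_option autoImplicit false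
set_option linter.unusedSectionVars false

noncomputable section

open AlgebraicCurve MvPolynomial

namespace Fermat.Agent.S17.H200

open Fermat.Agent.Lib.RR Fermat.Agent.S17.HWall Fermat.Agent.S17.H710 Fermat.Agent.S17.Wall
open Fermat.Agent.S17.H290

variable {K F : Type*} [Field K] [Field F] [Algebra K F] [FF1 K F]

/-! ### A base point free pencil inside a base point free linear system -/

/-- A base point free linear system `W ≤ L(D)` contains a base point free pencil
(`K` infinite). -/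
theorem exists_bpfPencil_mem [Infinite K] (W : Submodule K F) (D : Divisor K F)
    (hW : W ≤ riemannRochSpace D)
    (hbpf : ∀ v : Place K F, ∃ f ∈ W, f ≠ 0 ∧ v.ord f = -D v) :
    ∃ s₁ ∈ W, ∃ s₂ ∈ W, H259.IsBpfPencil D s₁ s₂ := by
  classical
  obtain ⟨v₀⟩ := FF1.nonempty_place (K := K) (F := F)
  obtain ⟨s₁, hs₁W, hs₁, -⟩ := hbpf v₀
  let S : Finset (Place K F) := (divOf (K := K) s₁ hs₁ + D).support
  have hS : ∀ v ∉ S, v.ord s₁ = - D v := by
    intro v hv
    rw [Finsupp.notMem_support_iff] at hv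
    simp only [Finsupp.coe_add, Pi.add_apply, divOf_apply] at hv
    omega
  let p : Place K F → Subspace K W := fun v =>
    (riemannRochSpace (D - prim v)).comap W.subtype
  have hp : ∀ v, p v ≠ ⊤ := by
    intro v htop
    obtain ⟨f, hfW, hf0, hford⟩ := hbpf v
    have hmem : (⟨f, hfW⟩ : W) ∈ p v := by rw [htop]; trivial
    have hmem' : f ∈ riemannRochSpace (D - prim v) := hmem
    rw [mem_L_iff] at hmem'
    have h1 := (hmem' v).resolve_left hf0
    simp only [Finsupp.coe_sub, Pi.sub_apply, prim_apply_self] at h1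
    omega
  have hnot : (⊤ : Subspace K W) ∉ S.image p := by
    intro hmem
    obtain ⟨v, -, hv⟩ := Finset.mem_image.mp hmem
    exact hp v hv
  have hne := Subspace.biUnion_ne_univ_of_top_notMem hnot
  obtain ⟨s₂', hs₂'⟩ : ∃ x : W, x ∉ ⋃ q ∈ S.image p, (q : Set W) := by
    by_contra hcon
    simp only [not_exists, not_not] at hcon
    exact hne (Set.eq_univ_of_forall hcon)
  refine ⟨s₁, hs₁W, s₂', s₂'.2, ⟨hW hs₁W, hW s₂'.2, hs₁, fun v => ?_⟩⟩
  by_cases hv : v ∈ S
  · right
    have hnm : s₂' ∉ p v := fun hm =>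
      hs₂' (Set.mem_biUnion (Finset.mem_image_of_mem p hv) hm)
    have hmem := hW s₂'.2
    rw [mem_L_iff] at hmem
    have hnm' : ¬ ((s₂' : F) ∈ riemannRochSpace (D - prim v)) := hnm
    rw [mem_L_iff] at hnm'
    simp only [not_forall, not_or, not_le] at hnm'
    obtain ⟨w, hw0, hw⟩ := hnm'
    have hwv : w = v := by
      by_contra hne'
      have h3 := (hmem w).resolve_left hw0
      simp only [Finsupp.coe_sub, Pi.sub_apply, prim_apply_of_ne hne'] at hw
      omega
    subst hwv
    refine ⟨hw0, ?_⟩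
    have h3 := (hmem w).resolve_left hw0
    simp only [Finsupp.coe_sub, Pi.sub_apply, prim_apply_self] at hw
    omega
  · left
    exact hS v hv

/-! ### The sections of the forms `G l` -/

/-- the divisor `e m ∞ − Z` -/
def weilDiv (E : EmbData K F) (e : ℕ) (Z : Divisor K F) : Divisor K F :=
  (e * E.m) • prim E.vinf - Z

theorem degree_weilDiv (E : EmbData K F) (e : ℕ) (Z : Divisor K F) :
    Divisor.degree (weilDiv E e Z) = (e : ℤ) * E.m - Divisor.degree Z := by
  unfold weilDiv
  rw [map_sub, map_nsmul, degree_prim']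
  simp

theorem aeval_mem_weilDiv (E : EmbData K F) {ι : Type*} (e : ℕ)
    (G : ι → MvPolynomial (Fin (E.r + 1)) K) (Z : Divisor K F) (hex : ExactZero E e G Z)
    (p : ι) : aeval E.x (G p) ∈ riemannRochSpace (weilDiv E e Z) := by
  rw [mem_L_iff]
  intro v
  by_cases h0 : aeval E.x (G p) = 0
  · left; exact h0
  · right
    have h1 := Finsupp.le_def.mp (hex.1 p h0) v
    unfold zdiv at h1
    rw [dif_neg h0, Finsupp.add_apply, divOf_apply] at h1
    simp only [weilDiv, Finsupp.coe_sub, Pi.sub_apply]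
    omega

theorem exists_ord_eq_weilDiv (E : EmbData K F) {ι : Type*} (e : ℕ)
    (G : ι → MvPolynomial (Fin (E.r + 1)) K) (Z : Divisor K F) (hex : ExactZero E e G Z)
    (v : Place K F) :
    ∃ f ∈ Submodule.span K (Set.range fun p => aeval E.x (G p)),
      f ≠ 0 ∧ v.ord f = -(weilDiv E e Z) v := by
  obtain ⟨p, h0, hp⟩ := hex.2 v
  refine ⟨aeval E.x (G p), Submodule.subset_span ⟨p, rfl⟩, h0, ?_⟩
  unfold zdiv at hp
  rw [dif_neg h0, Finsupp.add_apply, divOf_apply] at hp
  simp only [weilDiv, Finsupp.coe_sub, Pi.sub_apply]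
  omega

/-- The monomials of degree `t + 1` in the `E.x i` span `L((t + 1) m ∞)`. -/
theorem span_monomials_emb [Infinite K] (E : EmbData K F) (hBig : Big E) (t : ℕ) :
    Submodule.span K (Set.range fun γ : Fin (t + 1) → Fin (E.r + 1) => ∏ k, E.x (γ k)) =
      riemannRochSpace ((t + 1) • (E.m • prim E.vinf) : Divisor K F) := by
  rw [H317.span_monomials, E.x_span, H317.prod_L_minf E hBig t]

/-- **The `𝒜`-sections span.**  `L((t+1) m∞ + (e m∞ − Z))` is contained in the span of the
sections of the forms `G l * monoOrd γ`, `|γ| = t + 1`, as soon as `e ≤ t`. -/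
theorem le_span_formMono [Infinite K] (E : EmbData K F) (hBig : Big E) {ι : Type*} (e : ℕ)
    (G : ι → MvPolynomial (Fin (E.r + 1)) K) (Z : Divisor K F) (hZ : 0 ≤ Z)
    (hex : ExactZero E e G Z) (t : ℕ) (het : e ≤ t) :
    riemannRochSpace ((t + 1) • (E.m • prim E.vinf) + weilDiv E e Z) ≤
      Submodule.span K (Set.range fun q : ι × (Fin (t + 1) → Fin (E.r + 1)) =>
        aeval E.x (G q.1 * monoOrd q.2)) := by
  classical
  have hW : Submodule.span K (Set.range fun p => aeval E.x (G p)) ≤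
      riemannRochSpace (weilDiv E e Z) := by
    rw [Submodule.span_le]
    rintro _ ⟨p, rfl⟩
    exact aeval_mem_weilDiv E e G Z hex p
  obtain ⟨s₁, hs₁, s₂, hs₂, hpen⟩ := exists_bpfPencil_mem _ _ hW
    (exists_ord_eq_weilDiv E e G Z hex)
  have hdeg : Divisor.degree (weilDiv E e Z) + 2 * (genusFF K F : ℤ) - 1 ≤
      Divisor.degree ((t + 1) • (E.m • prim E.vinf) : Divisor K F) := by
    rw [degree_weilDiv, map_nsmul, H317.emb_degree_minf, genusFF_eq_genusR, nsmul_eq_mul]
    have h1 : 0 ≤ Divisor.degree Z := degree_nonneg hZ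
    have h2 : 2 * (genusR K F : ℤ) + 1 ≤ (E.m : ℤ) := by exact_mod_cast E.hm
    have h3 : (e : ℤ) ≤ (t : ℤ) := by exact_mod_cast het
    have h4 : (e : ℤ) * (E.m : ℤ) ≤ (t : ℤ) * (E.m : ℤ) :=
      mul_le_mul_of_nonneg_right h3 (Int.natCast_nonneg _)
    push_cast
    linarith
  have key : ∀ s ∈ Submodule.span K (Set.range fun p => aeval E.x (G p)),
      ∀ a ∈ riemannRochSpace ((t + 1) • (E.m • prim E.vinf) : Divisor K F),
        s * a ∈ Submodule.span K (Set.range fun q : ι × (Fin (t + 1) → Fin (E.r + 1)) =>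
          aeval E.x (G q.1 * monoOrd q.2)) := by
    intro s hs a ha
    rw [← span_monomials_emb E hBig t] at ha
    have h := Submodule.mul_mem_mul hs ha
    rw [Submodule.span_mul_span] at h
    refine Submodule.span_mono ?_ h
    rintro _ ⟨_, ⟨p, rfl⟩, _, ⟨γ, rfl⟩, rfl⟩
    exact ⟨(p, γ), by simp [H317.aeval_monoOrd]⟩
  intro f hf
  obtain ⟨a, ha, b, hb, rfl⟩ := H259.pencil_trick hpen hdeg hf
  exact Submodule.add_mem _ (key s₁ hs₁ a ha) (key s₂ hs₂ b hb)

theorem prod_x_mem (E : EmbData K F) :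
    ∀ (t : ℕ) (γ : Fin t → Fin (E.r + 1)),
      ∏ k, E.x (γ k) ∈ riemannRochSpace (t • (E.m • prim E.vinf) : Divisor K F) := by
  intro t
  induction t with
  | zero =>
    intro γ
    rw [Fin.prod_univ_zero, zero_nsmul, mem_L_iff]
    intro v
    right
    rw [Place.ord_one]
    simp
  | succ n ih =>
    intro γ
    rw [Fin.prod_univ_succ, succ_nsmul, add_comm]
    exact H259.mul_le_L _ _ (Submodule.mul_mem_mul (H317.emb_x_mem E _) (ih _))

theorem aeval_formMono_mem (E : EmbData K F) {ι : Type*} (e : ℕ)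
    (G : ι → MvPolynomial (Fin (E.r + 1)) K) (Z : Divisor K F)
    (hex : ExactZero E e G Z) (t : ℕ) (q : ι × (Fin t → Fin (E.r + 1))) :
    aeval E.x (G q.1 * monoOrd q.2) ∈
      riemannRochSpace (t • (E.m • prim E.vinf) + weilDiv E e Z) := by
  rw [map_mul, mul_comm, H317.aeval_monoOrd]
  exact H259.mul_le_L _ _ (Submodule.mul_mem_mul (prod_x_mem E t q.2)
    (aeval_mem_weilDiv E e G Z hex q.1))

/-! ### The sections of the products of secant forms -/

/-- **The `ℬ`-sections span.**  The sections of the forms `secProd (pt ∘ B) s * monoOrd δ`,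
`|δ| = t' + 1 ≥ 2`, span `L((t'+1) m∞ + z m∞ − Σ Bᵢ)`. -/
theorem span_secMono [Infinite K] (E : EmbData K F) (hBig : Big E) {z : ℕ}
    (B : Fin z → Place K F) (t' : ℕ) (ht' : 1 ≤ t') :
    Submodule.span K (Set.range
        fun q : (Fin z → Fin (E.r + 1) × Fin (E.r + 1)) × (Fin (t' + 1) → Fin (E.r + 1)) =>
          aeval E.x (secProd (fun i => E.pt (B i)) q.1 * monoOrd q.2)) =
      riemannRochSpace
        (H317.prodDiv (E.m • prim E.vinf) ((t' + 1) • (E.m • prim E.vinf)) B) := by
  have h2 : 2 * (genusR K F : ℤ) + 1 ≤ (E.m : ℤ) := by exact_mod_cast E.hm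
  have hE : 2 * (genusFF K F : ℤ) + 1 ≤ Divisor.degree (E.m • prim E.vinf : Divisor K F) := by
    rw [H317.emb_degree_minf, genusFF_eq_genusR]
    exact h2
  have hB : Divisor.degree (E.m • prim E.vinf : Divisor K F) + 2 * (genusFF K F : ℤ) - 2 ≤
      Divisor.degree ((t' + 1) • (E.m • prim E.vinf) : Divisor K F) := by
    rw [map_nsmul Divisor.degree (t' + 1) (E.m • prim E.vinf : Divisor K F),
      H317.emb_degree_minf, genusFF_eq_genusR, nsmul_eq_mul]
    have h3 : (1 : ℤ) ≤ (t' : ℤ) := by exact_mod_cast ht'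
    have h4 : (1 : ℤ) * (E.m : ℤ) ≤ (t' : ℤ) * (E.m : ℤ) :=
      mul_le_mul_of_nonneg_right h3 (Int.natCast_nonneg _)
    push_cast
    linarith
  rw [← H317.span_products hE hB B (span_monomials_emb E hBig t')
    (fun i => H317.span_secant_emb E (B i))]
  congr 1
  ext f
  simp only [Set.mem_range, Set.mem_ofPred_eq]
  constructor
  · rintro ⟨⟨s, δ⟩, rfl⟩
    refine ⟨_, ⟨δ, rfl⟩,
      fun i => E.pt (B i) (s i).1 • E.x (s i).2 - E.pt (B i) (s i).2 • E.x (s i).1,
      fun i => ⟨s i, rfl⟩, ?_⟩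
    rw [map_mul, H317.aeval_secProd, H317.aeval_monoOrd, mul_comm]
  · rintro ⟨_, ⟨δ, rfl⟩, b, hb, rfl⟩
    choose s hs using hb
    refine ⟨(s, δ), ?_⟩
    rw [map_mul, H317.aeval_secProd, H317.aeval_monoOrd, mul_comm]
    congr 1
    exact Finset.prod_congr rfl fun i _ => hs i

/-! ### Transfer to the values at the points `E.pt P` -/

/-- A linear relation between sections of forms of the same degree holds for the values at
every point `E.pt P`. -/
theorem eval_pt_eq_sum (E : EmbData K F) {τ : Type*} [Fintype τ] {N : ℕ}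
    (p : MvPolynomial (Fin (E.r + 1)) K) (q : τ → MvPolynomial (Fin (E.r + 1)) K)
    (hp : p.IsHomogeneous N) (hq : ∀ j, (q j).IsHomogeneous N) (c : τ → K)
    (h : ∑ j, c j • aeval E.x (q j) = aeval E.x p) (P : Place K F) :
    eval (E.pt P) p = ∑ j, c j * eval (E.pt P) (q j) := by
  have hhom : (p - ∑ j, C (c j) * q j).IsHomogeneous N := by
    refine IsHomogeneous.sub hp (IsHomogeneous.sum _ _ _ fun j _ => ?_)
    simpa using (isHomogeneous_C _ (c j)).mul (hq j)
  have h0 : aeval E.x (p - ∑ j, C (c j) * q j) = 0 := by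
    rw [map_sub, ← h, map_sum]
    simp [Algebra.smul_def]
  have h1 := H440.onCone_pt E P N _ hhom h0
  rw [map_sub, map_sum] at h1
  simp only [map_mul, eval_C] at h1
  exact sub_eq_zero.mp h1

/-- If the sections of the forms `p s` lie in the span of the sections of the forms `q j`
(all of one degree), the values of the `p s` are FIXED linear combinations of the values of the
`q j`. -/
theorem exists_matrix (E : EmbData K F) {σ τ : Type*} [Fintype τ] {N : ℕ}
    (p : σ → MvPolynomial (Fin (E.r + 1)) K) (q : τ → MvPolynomial (Fin (E.r + 1)) K)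
    (hp : ∀ s, (p s).IsHomogeneous N) (hq : ∀ j, (q j).IsHomogeneous N)
    (hspan : ∀ s, aeval E.x (p s) ∈ Submodule.span K (Set.range fun j => aeval E.x (q j))) :
    ∃ M : σ × τ → K, ∀ (P : Place K F) (s : σ),
      eval (E.pt P) (p s) = ∑ j, M (s, j) * eval (E.pt P) (q j) := by
  have h : ∀ s, ∃ c : τ → K, ∑ j, c j • aeval E.x (q j) = aeval E.x (p s) := fun s =>
    (Submodule.mem_span_range_iff_exists_fun K).mp (hspan s)
  choose c hc using h
  exact ⟨fun a => c a.1 a.2, fun P s => eval_pt_eq_sum E (p s) q (hp s) hq (c s) (hc s) P⟩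

theorem weilDiv_eq_prodDiv (E : EmbData K F) (e : ℕ) {z : ℕ} (B : Fin z → Place K F) :
    ((e + z + 1 + 1) • (E.m • prim E.vinf) + weilDiv E e (∑ i, prim (B i)) : Divisor K F) =
      H317.prodDiv (E.m • prim E.vinf) ((2 * e + 1 + 1) • (E.m • prim E.vinf)) B := by
  unfold weilDiv H317.prodDiv
  have h1 : ((e * E.m) • prim E.vinf : Divisor K F) = e • (E.m • prim E.vinf) :=
    mul_nsmul' _ _ _
  rw [h1, ← add_sub_assoc, ← add_nsmul, ← add_nsmul]
  congr 2
  omega

/-- **The two families of values are related by fixed matrices.** -/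
theorem exists_matrices [Infinite K] (E : EmbData K F) (hBig : Big E) {ι : Type*} [Fintype ι]
    (e : ℕ) (G : ι → MvPolynomial (Fin (E.r + 1)) K) (hG : ∀ p, (G p).IsHomogeneous e)
    {z : ℕ} (B : Fin z → Place K F) (hex : ExactZero E e G (∑ i, prim (B i))) :
    ∃ (M : (ι × (Fin (e + z + 1 + 1) → Fin (E.r + 1))) ×
          ((Fin z → Fin (E.r + 1) × Fin (E.r + 1)) × (Fin (2 * e + 1 + 1) → Fin (E.r + 1))) → K)
      (M' : ((Fin z → Fin (E.r + 1) × Fin (E.r + 1)) × (Fin (2 * e + 1 + 1) → Fin (E.r + 1))) ×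
          (ι × (Fin (e + z + 1 + 1) → Fin (E.r + 1))) → K),
      (∀ (P : Place K F) (q : ι × (Fin (e + z + 1 + 1) → Fin (E.r + 1))),
        eval (E.pt P) (G q.1 * monoOrd q.2) =
          ∑ j, M (q, j) * eval (E.pt P) (secProd (fun i => E.pt (B i)) j.1 * monoOrd j.2)) ∧
      (∀ (P : Place K F)
        (j : (Fin z → Fin (E.r + 1) × Fin (E.r + 1)) × (Fin (2 * e + 1 + 1) → Fin (E.r + 1))),
        eval (E.pt P) (secProd (fun i => E.pt (B i)) j.1 * monoOrd j.2) =
          ∑ q, M' (j, q) * eval (E.pt P) (G q.1 * monoOrd q.2)) := by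
  classical
  have hZ : (0 : Divisor K F) ≤ ∑ i, prim (B i) := by
    refine Finset.sum_nonneg fun i _ => ?_
    unfold prim
    rw [Finsupp.le_def]
    intro v
    rw [Finsupp.single_apply]
    split_ifs <;> simp
  have hA : ∀ q : ι × (Fin (e + z + 1 + 1) → Fin (E.r + 1)),
      (G q.1 * monoOrd q.2).IsHomogeneous (e + (e + z + 1 + 1)) := fun q =>
    (hG q.1).mul (monoOrd_isHomogeneous q.2)
  have hB : ∀ j : (Fin z → Fin (E.r + 1) × Fin (E.r + 1)) × (Fin (2 * e + 1 + 1) → Fin (E.r + 1)),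
      (secProd (fun i => E.pt (B i)) j.1 * monoOrd (K := K) j.2).IsHomogeneous
        (e + (e + z + 1 + 1)) := fun j => by
    have h := (secProd_isHomogeneous (fun i => E.pt (B i)) j.1).mul
      (monoOrd_isHomogeneous (K := K) j.2)
    have hN : z + (2 * e + 1 + 1) = e + (e + z + 1 + 1) := by omega
    rwa [hN] at h
  have hsB := span_secMono E hBig B (2 * e + 1) (by omega)
  have hsA := le_span_formMono E hBig e G _ hZ hex (e + z + 1) (by omega)
  rw [weilDiv_eq_prodDiv] at hsA
  obtain ⟨M, hM⟩ := exists_matrix E _ _ hA hB (fun q => by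
    rw [hsB, ← weilDiv_eq_prodDiv]
    exact aeval_formMono_mem E e G _ hex _ q)
  obtain ⟨M', hM'⟩ := exists_matrix E _ _ hB hA (fun j => by
    apply hsA
    rw [← hsB]
    exact Submodule.subset_span ⟨j, rfl⟩)
  exact ⟨M, M', hM, hM'⟩

end Fermat.Agent.S17.H200
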